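import Fermat.Agent.S37x.FF.H23_Model
import Fermat.Prelude.Def_AlgebraicCurve_Correspondence

/-!
# S37 [FF] (helper23), part 3: the norm formula `ord_v (N f) = ∑_{w | v} f_w ord_w f`
-/

set_option autoImplicit false
set_option linter.style.haveILetI false
set_option linter.unusedSectionVars false

namespace Fermat.Agent.S37x.FF.H23

open IsDedekindDomain AlgebraicCurve WithZero
open Fermat.Agent.S24.Alg

section RelNorm

variable {R S : Type*} [CommRing R] [CommRing S] [IsDedekindDomain R] [IsDedekindDomain S]
  [Algebra R S] [Module.Finite R S] [Module.IsTorsionFree R S] [PerfectField (FractionRing R)]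

/-- The multiplicity of a prime `q` of `S` in a nonzero prime `P`. -/
theorem h23_multiplicity_prime (P q : Ideal S) (hP : P.IsPrime) (hP0 : P ≠ ⊥) (hq : q.IsPrime)
    (_hq0 : q ≠ ⊥) : multiplicity q P = if q = P then 1 else 0 := by
  split_ifs with h
  · subst h
    exact multiplicity_self
  · rw [multiplicity_eq_zero, Ideal.dvd_iff_le]
    intro hle
    have hPmax : P.IsMaximal := Ideal.IsPrime.isMaximal hP hP0
    exact h (hPmax.eq_of_le hq.ne_top hle).symm

/-- `R` local with maximal ideal `p`: the `p`-multiplicity of the relative norm of an ideal. -/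
theorem h23_multiplicity_relNorm (p : Ideal R) [p.IsMaximal] (hp : p ≠ ⊥)
    (hloc : ∀ P : Ideal S, P.IsPrime → P ≠ ⊥ → P.under R = p) (I : Ideal S) (hI : I ≠ ⊥) :
    multiplicity p (Ideal.relNorm R I) =
      ∑ q : p.primesOver S, q.1.inertiaDeg R * multiplicity q.1 I := by
  classical
  have hpprime : Prime p := (Ideal.prime_iff_isPrime hp).mpr inferInstance
  induction I using UniqueFactorizationMonoid.induction_on_prime with
  | h₁ => exact absurd rfl hI
  | h₂ x hx =>
    have hx' : x = ⊤ := Ideal.isUnit_iff.mp hx
    subst hx'
    rw [Ideal.relNorm_top, ← Ideal.one_eq_top, multiplicity_of_one_right hpprime.not_isUnit]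
    symm
    refine Finset.sum_eq_zero fun q _ => ?_
    have hq : Prime q.1 :=
      (Ideal.prime_iff_isPrime (Ideal.ne_bot_of_mem_primesOver hp q.2)).mpr q.2.1
    rw [← Ideal.one_eq_top, multiplicity_of_one_right hq.not_isUnit, mul_zero]
  | h₃ a P ha hP ih =>
    have hP0 : P ≠ ⊥ := hP.ne_zero
    have hPprime : P.IsPrime := (Ideal.prime_iff_isPrime hP0).mp hP
    have hPmax : P.IsMaximal := Ideal.IsPrime.isMaximal hPprime hP0
    haveI : P.LiesOver p := ⟨(hloc P hPprime hP0).symm⟩
    have hrel : Ideal.relNorm R P = p ^ P.inertiaDeg R := Ideal.relNorm_eq_pow_of_isMaximal P p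
    have hrela : Ideal.relNorm R a ≠ 0 := by
      rw [Ne, Ideal.zero_eq_bot, Ideal.relNorm_eq_bot_iff]
      exact ha
    rw [map_mul, hrel,
      multiplicity_mul hpprime (FiniteMultiplicity.of_prime_left hpprime
        (mul_ne_zero (pow_ne_zero _ hpprime.ne_zero) hrela)),
      multiplicity_pow_self_of_prime hpprime, ih ha]
    have hsum : ∀ q : p.primesOver S, q.1.inertiaDeg R * multiplicity q.1 (P * a) =
        (if q.1 = P then P.inertiaDeg R else 0) + q.1.inertiaDeg R * multiplicity q.1 a := by
      intro q
      have hq0 : q.1 ≠ ⊥ := Ideal.ne_bot_of_mem_primesOver hp q.2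
      have hq : Prime q.1 := (Ideal.prime_iff_isPrime hq0).mpr q.2.1
      rw [multiplicity_mul hq (FiniteMultiplicity.of_prime_left hq (mul_ne_zero hP0 ha)),
        h23_multiplicity_prime P q.1 hPprime hP0 q.2.1 hq0, mul_add]
      congr 1
      split_ifs with h
      · rw [h, mul_one]
      · rw [mul_zero]
    rw [Finset.sum_congr rfl fun q _ => hsum q, Finset.sum_add_distrib]
    congr 1
    rw [Finset.sum_eq_single (⟨P, hPprime, inferInstance⟩ : p.primesOver S)]
    · rw [if_pos rfl]
    · intro q _ hq
      rw [if_neg]
      intro h
      exact hq (Subtype.ext h)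
    · intro h
      exact absurd (Finset.mem_univ _) h

end RelNorm

section Ord

variable {K F : Type*} [Field K] [Field F] [Algebra K F] (v : Place K F)

/-- the order of an element of the valuation ring is its multiplicity. -/
theorem h23_ord_coe {a : v.toValuationSubring} (ha : a ≠ 0) :
    v.ord (a : F) =
      (multiplicity (IsLocalRing.maximalIdeal v.toValuationSubring) (Ideal.span {a}) : ℤ) := by
  rw [Place.ord, v.adicValuation_coe,
    HeightOneSpectrum.intValuation_eq_exp_neg_multiplicity _ ha, log_exp, neg_neg]
  rfl

theorem h23_ord_div {x y : F} (hx : x ≠ 0) (hy : y ≠ 0) :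
    v.ord (x / y) = v.ord x - v.ord y := by
  rw [div_eq_mul_inv, v.ord_mul hx (inv_ne_zero hy), v.ord_inv, sub_eq_add_neg]

end Ord

section ModelNorm

variable {K F F' : Type*} [Field K] [Field F] [Field F'] [Algebra K F] [Algebra K F']
  [Algebra F F'] [IsScalarTower K F F'] [FiniteDimensional F F']
variable (v : Place K F)
variable [Algebra v.toValuationSubring F'] [IsScalarTower v.toValuationSubring F F']
variable (B : Type*) [CommRing B] [IsDedekindDomain B] [Algebra B F'] [IsFractionRing B F']
  [Algebra v.toValuationSubring B] [IsScalarTower v.toValuationSubring B F']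
  [IsIntegralClosure B v.toValuationSubring F'] [Algebra K B] [IsScalarTower K B F']
  [IsScalarTower K v.toValuationSubring B] [Module.Finite v.toValuationSubring B]
  [Module.IsTorsionFree v.toValuationSubring B]

variable {B} in
/-- the order at `P` of an element of `B` is its multiplicity. -/
theorem h23_ord_placeOfPrime_algebraMap (P : HeightOneSpectrum B) {b : B} (hb : b ≠ 0) :
    (placeOfPrime K P : Place K F').ord (algebraMap B F' b) =
      (multiplicity P.asIdeal (Ideal.span {b}) : ℤ) := by
  rw [ord_placeOfPrime, HeightOneSpectrum.valuation_of_algebraMap,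
    HeightOneSpectrum.intValuation_eq_exp_neg_multiplicity _ hb, log_exp, neg_neg]

variable {B} in
/-- the prelude inertia degree is Mathlib's, when `deg v ≠ 0`. -/
theorem h23_inertiaDeg (hv : v.deg ≠ 0) (P : HeightOneSpectrum B) :
    (placeOfPrime K P : Place K F').inertiaDeg F =
      P.asIdeal.inertiaDeg v.toValuationSubring := by
  have h1 := (placeOfPrime K P : Place K F').deg_restrict_mul_inertiaDeg (F := F)
  rw [h23_restrict_placeOfPrime v P, h23_deg v P] at h1
  exact Nat.eq_of_mul_eq_mul_left (Nat.pos_of_ne_zero hv) h1

variable [PerfectField (FractionRing v.toValuationSubring)]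

variable {B} in
/-- The norm formula at `v` for elements of `B`. -/
theorem h23_ord_norm_algebraMap {b : B} (hb : b ≠ 0) :
    v.ord (Algebra.norm F (algebraMap B F' b)) =
      ∑ q : (IsLocalRing.maximalIdeal v.toValuationSubring).primesOver B,
        (q.1.inertiaDeg v.toValuationSubring : ℤ) *
          (placeOfPrime K ((h23_primeEquiv v B).symm q) : Place K F').ord (algebraMap B F' b) := by
  haveI : (IsLocalRing.maximalIdeal v.toValuationSubring).IsMaximal :=
    IsLocalRing.maximalIdeal.isMaximal _
  have hnorm : ((Algebra.intNorm v.toValuationSubring B b : v.toValuationSubring) : F) =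
      Algebra.norm F (algebraMap B F' b) :=
    Algebra.algebraMap_intNorm (A := v.toValuationSubring) (K := F) (L := F') (B := B) b
  have hb' : algebraMap B F' b ≠ 0 := by
    intro h
    exact hb (IsFractionRing.injective B F' (by rw [h, map_zero]))
  have hN0 : Algebra.intNorm v.toValuationSubring B b ≠ 0 := by
    intro h
    rw [h] at hnorm
    exact (Algebra.norm_ne_zero_iff.mpr hb') hnorm.symm
  have hspan : (Ideal.span {b} : Ideal B) ≠ ⊥ := by
    rwa [Ne, Ideal.span_singleton_eq_bot]
  rw [← hnorm, h23_ord_coe v hN0, ← Ideal.relNorm_singleton,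
    h23_multiplicity_relNorm (IsLocalRing.maximalIdeal v.toValuationSubring)
      (h23_maximalIdeal_ne_bot v)
      (fun P hP hP0 => h23_under v (⟨P, hP, hP0⟩ : HeightOneSpectrum B)) _ hspan]
  push_cast
  refine Finset.sum_congr rfl fun q _ => ?_
  rw [h23_ord_placeOfPrime_algebraMap _ hb]
  rfl

/-- The norm formula at `v`. -/
theorem h23_ord_norm {f : F'} (hf : f ≠ 0) :
    v.ord (Algebra.norm F f) =
      ∑ q : (IsLocalRing.maximalIdeal v.toValuationSubring).primesOver B,
        (q.1.inertiaDeg v.toValuationSubring : ℤ) *
          (placeOfPrime K ((h23_primeEquiv v B).symm q) : Place K F').ord f := by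
  obtain ⟨x, y, hy, rfl⟩ := IsFractionRing.div_surjective (A := B) f
  have hy0 : y ≠ 0 := nonZeroDivisors.ne_zero hy
  have hy' : algebraMap B F' y ≠ 0 := by
    intro h
    exact hy0 (IsFractionRing.injective B F' (by rw [h, map_zero]))
  have hx' : algebraMap B F' x ≠ 0 := by
    intro h
    rw [h, zero_div] at hf
    exact hf rfl
  have hx0 : x ≠ 0 := by
    rintro rfl
    exact hx' (map_zero _)
  have hmul : Algebra.norm F (algebraMap B F' x / algebraMap B F' y) *
      Algebra.norm F (algebraMap B F' y) = Algebra.norm F (algebraMap B F' x) := by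
    rw [← map_mul, div_mul_cancel₀ _ hy']
  have hord : v.ord (Algebra.norm F (algebraMap B F' x / algebraMap B F' y)) =
      v.ord (Algebra.norm F (algebraMap B F' x)) - v.ord (Algebra.norm F (algebraMap B F' y)) := by
    rw [← hmul, v.ord_mul (Algebra.norm_ne_zero_iff.mpr hf) (Algebra.norm_ne_zero_iff.mpr hy')]
    ring
  rw [hord, h23_ord_norm_algebraMap v hx0, h23_ord_norm_algebraMap v hy0,
    ← Finset.sum_sub_distrib]
  refine Finset.sum_congr rfl fun q _ => ?_
  rw [h23_ord_div _ hx' hy', mul_sub]

include B in
/-- **The norm formula at `v`**, in the prelude's pushforward form. -/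
theorem h23_pushforward_at (hv : v.deg ≠ 0) {f : F'} (hf : f ≠ 0) (D : Divisor K F')
    (hD : ∀ w, D w = w.ord f) :
    Divisor.pushforward F D v = v.ord (Algebra.norm F f) := by
  classical
  rw [h23_ord_norm v B hf, Divisor.pushforward_apply]
  symm
  refine Finset.sum_bij_ne_zero
    (fun q _ _ => (placeOfPrime K ((h23_primeEquiv v B).symm q) : Place K F')) ?_ ?_ ?_ ?_
  · intro q _ h
    rw [Finsupp.mem_support_iff, hD]
    intro h0
    rw [h0, mul_zero] at h
    exact h rfl
  · intro q₁ _ _ q₂ _ _ h
    exact (h23_primeEquiv v B).symm.injective (placeOfPrime_injective h)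
  · intro w _ hw
    have hres : w.restrict F = v := by
      by_contra h
      rw [if_neg h] at hw
      exact hw rfl
    obtain ⟨P, hP⟩ := h23_exists_prime v B w hres
    refine ⟨h23_primeEquiv v B P, Finset.mem_univ _, ?_, ?_⟩
    · rw [if_pos hres, hP, hD] at hw
      rw [Equiv.symm_apply_apply]
      change ((P.asIdeal.inertiaDeg v.toValuationSubring : ℕ) : ℤ) *
        (placeOfPrime K P : Place K F').ord f ≠ 0
      rw [← h23_inertiaDeg (F' := F') v hv P, mul_comm]
      exact hw
    · rw [Equiv.symm_apply_apply]; exact hP.symm
  · intro q _ _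
    rw [if_pos (h23_restrict_placeOfPrime v _), hD, h23_inertiaDeg v hv, mul_comm]
    rfl

end ModelNorm

section GenericNorm

variable {K F F' : Type*} [Field K] [Field F] [Field F'] [Algebra K F] [Algebra K F']
  [Algebra F F'] [IsScalarTower K F F'] [FiniteDimensional F F'] [CharZero F]

/-- The norm formula at one place (characteristic zero, `deg v ≠ 0`). -/
theorem h23_pushforward_place (v : Place K F) (hv : v.deg ≠ 0) {f : F'} (hf : f ≠ 0)
    (D : Divisor K F') (hD : ∀ w, D w = w.ord f) :
    Divisor.pushforward F D v = v.ord (Algebra.norm F f) := by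
  letI : Algebra v.toValuationSubring F' :=
    ((algebraMap F F').comp (algebraMap v.toValuationSubring F)).toAlgebra
  haveI : IsScalarTower v.toValuationSubring F F' := IsScalarTower.of_algebraMap_eq fun _ => rfl
  haveI : FaithfulSMul v.toValuationSubring F' :=
    (faithfulSMul_iff_algebraMap_injective v.toValuationSubring F').mpr
      ((algebraMap F F').injective.comp Subtype.val_injective)
  haveI : IsDedekindDomain (integralClosure v.toValuationSubring F') :=
    integralClosure.isDedekindDomain v.toValuationSubring F F'
  haveI : IsFractionRing (integralClosure v.toValuationSubring F') F' :=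
    integralClosure.isFractionRing_of_finite_extension F F'
  haveI : Module.Finite v.toValuationSubring (integralClosure v.toValuationSubring F') :=
    IsIntegralClosure.finite v.toValuationSubring F F' (integralClosure v.toValuationSubring F')
  letI : Algebra K (integralClosure v.toValuationSubring F') :=
    ((algebraMap v.toValuationSubring (integralClosure v.toValuationSubring F')).comp
      (algebraMap K v.toValuationSubring)).toAlgebra
  haveI : IsScalarTower K v.toValuationSubring (integralClosure v.toValuationSubring F') :=
    IsScalarTower.of_algebraMap_eq fun _ => rfl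
  haveI : IsScalarTower K (integralClosure v.toValuationSubring F') F' :=
    IsScalarTower.of_algebraMap_eq fun a => by
      rw [IsScalarTower.algebraMap_apply K F F']
      rfl
  haveI : CharZero v.toValuationSubring :=
    (algebraMap v.toValuationSubring F).charZero
  haveI : CharZero (FractionRing v.toValuationSubring) :=
    charZero_of_injective_algebraMap
      (IsFractionRing.injective v.toValuationSubring (FractionRing v.toValuationSubring))
  exact h23_pushforward_at v (integralClosure v.toValuationSubring F') hv hf D hD

/-- **The norm formula** `ord_v (N f) = ∑_{w | v} f_w ord_w f` (prelude form) for a finite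
extension of function fields in characteristic zero all of whose places have finite degree. -/
theorem h23_pushforwardNormFormula (hdeg : ∀ v : Place K F, v.deg ≠ 0) :
    Divisor.PushforwardNormFormula K F F' :=
  fun _ hf D hD v => h23_pushforward_place v (hdeg v) hf D hD

end GenericNorm

section AlongNorm

variable {K F F' : Type*} [Field K] [Field F] [Field F'] [Algebra K F] [Algebra K F']

/-- The norm formula along a `K`-algebra map, in characteristic zero. -/
theorem h23_normFormulaAlong [CharZero F] (φ : F →ₐ[K] F') (hfin : FiniteAlong K φ)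
    (hdeg : ∀ v : Place K F, v.deg ≠ 0) : NormFormulaAlong K φ hfin := by
  letI := algebraAlong φ
  haveI := isScalarTower_along φ
  haveI : Module.Finite F F' := hfin
  exact h23_pushforwardNormFormula hdeg

end AlongNorm

end Fermat.Agent.S37x.FF.H23
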