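import Fermat.Agent.S37x.FF.H23_Model
import Fermat.Prelude.Def_AlgebraicCurve_Correspondence

/-!
# S37 [FF] (helper23), part 2: the fundamental identity `∑ e_w deg w = [F' : F] deg v`

For a finite separable extension `F'/F` of fields over `K` (no hypothesis on `K`), the prelude
class `FundamentalIdentity K F F'` holds; in the `Along` form for a `K`-algebra map `φ : F → F'`.
-/

set_option autoImplicit false
set_option linter.style.haveILetI false
set_option linter.unusedSectionVars false

namespace Fermat.Agent.S37x.FF.H23

open IsDedekindDomain AlgebraicCurve WithZero
open Fermat.Agent.S24.Alg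

section Generic

variable {K F F' : Type*} [Field K] [Field F] [Field F'] [Algebra K F] [Algebra K F']
  [Algebra F F'] [IsScalarTower K F F'] [FiniteDimensional F F'] [Algebra.IsSeparable F F']

/-- The fundamental identity at one place. -/
theorem h23_fundId_place [HasPrincipalDivisors K F'] (v : Place K F) :
    ∑ w ∈ v.fiber F', (w.ramificationIndex F : ℤ) * (w.deg : ℤ) =
      (Module.finrank F F' : ℤ) * (v.deg : ℤ) := by
  letI : Algebra v.toValuationSubring F' :=
    ((algebraMap F F').comp (algebraMap v.toValuationSubring F)).toAlgebra
  haveI : IsScalarTower v.toValuationSubring F F' := IsScalarTower.of_algebraMap_eq fun _ => rfl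
  haveI : FaithfulSMul v.toValuationSubring F' :=
    (faithfulSMul_iff_algebraMap_injective v.toValuationSubring F').mpr
      ((algebraMap F F').injective.comp Subtype.val_injective)
  haveI : IsDedekindDomain (integralClosure v.toValuationSubring F') :=
    integralClosure.isDedekindDomain v.toValuationSubring F F'
  haveI : IsFractionRing (integralClosure v.toValuationSubring F') F' :=
    integralClosure.isFractionRing_of_finite_extension F F'
  haveI : Module.Finite v.toValuationSubring (integralClosure v.toValuationSubring F') :=
    IsIntegralClosure.finite v.toValuationSubring F F' (integralClosure v.toValuationSubring F')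
  letI : Algebra K (integralClosure v.toValuationSubring F') :=
    ((algebraMap v.toValuationSubring (integralClosure v.toValuationSubring F')).comp
      (algebraMap K v.toValuationSubring)).toAlgebra
  haveI : IsScalarTower K v.toValuationSubring (integralClosure v.toValuationSubring F') :=
    IsScalarTower.of_algebraMap_eq fun _ => rfl
  haveI : IsScalarTower K (integralClosure v.toValuationSubring F') F' :=
    IsScalarTower.of_algebraMap_eq fun a => by
      rw [IsScalarTower.algebraMap_apply K F F']
      rfl
  exact h23_fundId_at v (integralClosure v.toValuationSubring F')

/-- **The fundamental identity** for a finite separable extension of function fields. -/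
theorem h23_fundamentalIdentity [HasPrincipalDivisors K F'] : FundamentalIdentity K F F' :=
  ⟨fun v => h23_fundId_place v⟩

end Generic

section Along

variable {K F F' : Type*} [Field K] [Field F] [Field F'] [Algebra K F] [Algebra K F']

/-- The fundamental identity along a `K`-algebra map, separable case. -/
theorem h23_fundamentalIdentityAlong_of_isSeparable [HasPrincipalDivisors K F']
    (φ : F →ₐ[K] F') (hφ : φ.toRingHom.IsIntegral) (hfin : FiniteAlong K φ)
    (hsep : letI := algebraAlong φ; Algebra.IsSeparable F F') :
    FundamentalIdentityAlong K φ hφ := by
  letI := algebraAlong φ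
  haveI := isScalarTower_along φ
  haveI : Module.Finite F F' := hfin
  haveI : Algebra.IsSeparable F F' := hsep
  exact h23_fundamentalIdentity

/-- The fundamental identity along a `K`-algebra map, in characteristic zero. -/
theorem h23_fundamentalIdentityAlong [CharZero F] [HasPrincipalDivisors K F']
    (φ : F →ₐ[K] F') (hφ : φ.toRingHom.IsIntegral) (hfin : FiniteAlong K φ) :
    FundamentalIdentityAlong K φ hφ := by
  refine h23_fundamentalIdentityAlong_of_isSeparable φ hφ hfin ?_
  letI := algebraAlong φ
  haveI : Module.Finite F F' := hfin
  infer_instance

end Along

end Fermat.Agent.S37x.FF.H23
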