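import Fermat.Agent.S18x.E.H29_StConst
import Fermat.Agent.S18x.Desc.H19_Bridge
import Fermat.Prelude.Def_ModularCurve_HeckeOperatorTotal

/-!
# S37 [FF] (helper23), part 4: the degeneracy maps `α`, `β` are finite (hence integral)

For every field `L ⊇ ℚ` and all `N, ℓ ≥ 1`:
`F_{Nℓ} = L(j(q^d) : d ∣ Nℓ)` is finite over `F_N` along the inclusion `α` and along
`β = (q ↦ q^ℓ)`.  Input: the modular equations of prime level (S28 MOD-C, both relations).
-/

set_option autoImplicit false
set_option linter.style.haveILetI false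
set_option linter.unusedSectionVars false

open Polynomial IntermediateField ModularCurve AlgebraicCurve

noncomputable section

namespace Fermat.Agent.S37x.FF.H23

open Fermat.Agent.S28 Fermat.Agent.S28.Deg.H8 Fermat.Agent.S28.Deg.H9

section Int

variable (k : Type) [Field k]

/-- If `j` is integral over `E` then so is every `j(q^d)`. -/
theorem h23_isIntegral_jd {E : Type*} [Field E] [Algebra E (LaurentSeries k)]
    (hj : IsIntegral E (jqModC k)) :
    ∀ (d : ℕ) [NeZero d], IsIntegral E (qExpand k d (jqModC k)) := by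
  intro d
  induction d using Nat.strong_induction_on with
  | _ d ih =>
    intro hd
    rcases eq_or_ne d 1 with rfl | hd1
    · rw [qExpand_one_apply]
      exact hj
    · have hd0 : d ≠ 0 := NeZero.ne d
      have hp : (d.minFac).Prime := Nat.minFac_prime hd1
      set p := d.minFac with hpdef
      set d' := d / p with hd'def
      have hdvd : p ∣ d := Nat.minFac_dvd d
      have hfac : d = d' * p := (Nat.div_mul_cancel hdvd).symm
      have hd'0 : d' ≠ 0 := by
        intro h0
        rw [h0, zero_mul] at hfac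
        exact hd0 hfac
      have hd'lt : d' < d := Nat.div_lt_self (Nat.pos_of_ne_zero hd0) hp.one_lt
      haveI : NeZero p := ⟨hp.ne_zero⟩
      haveI : NeZero d' := ⟨hd'0⟩
      haveI : NeZero (d' * p) := ⟨by rw [← hfac]; exact hd0⟩
      obtain ⟨Φ, hm, -, h1, -⟩ := (Mod.H24.h24_stModC p hp).to k
      have h2 := congrArg (qExpand k d') h1
      rw [ev2_hom, map_zero, qExpand_qExpand] at h2
      rw [qExpand_congr hfac]
      exact Fermat.Agent.S18x.E.H29.isIntegral_of_ev2 Φ hm _ _ (ih d' hd'lt) h2

/-- If some `j(q^d)` is integral over `E` then so is `j`. -/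
theorem h23_isIntegral_j_of_jd {E : Type*} [Field E] [Algebra E (LaurentSeries k)] :
    ∀ (d : ℕ) [NeZero d], IsIntegral E (qExpand k d (jqModC k)) → IsIntegral E (jqModC k) := by
  intro d
  induction d using Nat.strong_induction_on with
  | _ d ih =>
    intro hd hjd
    rcases eq_or_ne d 1 with rfl | hd1
    · rwa [qExpand_one_apply] at hjd
    · have hd0 : d ≠ 0 := NeZero.ne d
      have hp : (d.minFac).Prime := Nat.minFac_prime hd1
      set p := d.minFac with hpdef
      set d' := d / p with hd'def
      have hdvd : p ∣ d := Nat.minFac_dvd d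
      have hfac : d = d' * p := (Nat.div_mul_cancel hdvd).symm
      have hd'0 : d' ≠ 0 := by
        intro h0
        rw [h0, zero_mul] at hfac
        exact hd0 hfac
      have hd'lt : d' < d := Nat.div_lt_self (Nat.pos_of_ne_zero hd0) hp.one_lt
      haveI : NeZero p := ⟨hp.ne_zero⟩
      haveI : NeZero d' := ⟨hd'0⟩
      haveI : NeZero (d' * p) := ⟨by rw [← hfac]; exact hd0⟩
      obtain ⟨Φ, hm, -, -, h1⟩ := (Mod.H24.h24_stModC p hp).to k
      have h2 := congrArg (qExpand k d') h1
      rw [ev2_hom, map_zero, qExpand_qExpand] at h2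
      rw [qExpand_congr hfac] at hjd
      exact ih d' hd'lt (Fermat.Agent.S18x.E.H29.isIntegral_of_ev2 Φ hm _ _ hjd h2)

/-- Ring homomorphism form. -/
theorem h23_isIntegralElem_jd {E : Type*} [Field E] (f : E →+* LaurentSeries k)
    (hj : f.IsIntegralElem (jqModC k)) (d : ℕ) [NeZero d] :
    f.IsIntegralElem (qExpand k d (jqModC k)) := by
  letI := f.toAlgebra
  exact h23_isIntegral_jd k hj d

/-- Ring homomorphism form. -/
theorem h23_isIntegralElem_j_of_jd {E : Type*} [Field E] (f : E →+* LaurentSeries k)
    (d : ℕ) [NeZero d] (hjd : f.IsIntegralElem (qExpand k d (jqModC k))) :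
    f.IsIntegralElem (jqModC k) := by
  letI := f.toAlgebra
  exact h23_isIntegral_j_of_jd k d hjd

end Int

section Fin

variable {L Ω F : Type*} [Field L] [Field Ω] [Algebra L Ω] [Field F] [Algebra L F]

/-- A subfield `E' ⊆ L(S)` (`S` finite) is finite along `φ : F → E'` as soon as the elements
of `S` are integral over `F`. -/
theorem h23_finiteAlong (E' : IntermediateField L Ω) (S : Set Ω) (hS : S.Finite)
    (hE' : E' ≤ IntermediateField.adjoin L S) (φ : F →ₐ[L] E')
    (hint : ∀ s ∈ S, (E'.val.toRingHom.comp φ.toRingHom).IsIntegralElem s) :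
    FiniteAlong L φ := by
  unfold FiniteAlong
  letI := algebraAlong φ
  letI : Algebra F Ω := (E'.val.toRingHom.comp φ.toRingHom).toAlgebra
  haveI : IsScalarTower L F Ω := IsScalarTower.of_algebraMap_eq fun c => by
    show algebraMap L Ω c = E'.val (φ (algebraMap L F c))
    rw [φ.commutes]
    rfl
  haveI : Finite S := hS.to_subtype
  have hfin : FiniteDimensional F (IntermediateField.adjoin F S) :=
    IntermediateField.finiteDimensional_adjoin (fun s hs => hint s hs)
  have hle : ∀ x ∈ E', x ∈ IntermediateField.adjoin F S := by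
    intro x hx
    have h2 : IntermediateField.adjoin L S ≤
        (IntermediateField.adjoin F S).restrictScalars L := by
      rw [IntermediateField.adjoin_le_iff]
      intro s hs
      exact IntermediateField.subset_adjoin F S hs
    exact h2 (hE' hx)
  let f : E' →ₗ[F] IntermediateField.adjoin F S :=
    { toFun := fun x => ⟨x.1, hle x.1 x.2⟩
      map_add' := fun x y => rfl
      map_smul' := fun a x => by
        apply Subtype.ext
        rfl }
  have hf : Function.Injective f := fun x y h =>
    Subtype.ext (show x.1 = y.1 from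
      congrArg (fun z : IntermediateField.adjoin F S => (z : Ω)) h)
  exact Module.Finite.of_injective f hf

/-- finite along `φ` implies integral. -/
theorem h23_isIntegral_of_finiteAlong {F' : Type*} [Field F'] [Algebra L F'] (φ : F →ₐ[L] F')
    (h : FiniteAlong L φ) : φ.toRingHom.IsIntegral := by
  letI := algebraAlong φ
  haveI : Module.Finite F F' := h
  intro x
  exact Algebra.IsIntegral.isIntegral (R := F) x

end Fin

section Hecke

variable (L : Type) [Field L] [Algebra ℚ L] (N ℓ : ℕ) [NeZero N] [NeZero ℓ]

theorem h23_jq_mem : jqModC L ∈ laurentBaseChange L (modularFunctionFieldFull N) := by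
  rw [Fermat.Agent.S18x.Desc.H19.h19_laurentBaseChange_eq]
  exact jqModC_mem_full L N

theorem h23_le_adjoin :
    laurentBaseChange L (modularFunctionFieldFull (N * ℓ)) ≤
      IntermediateField.adjoin L (divisorExpansionsC L (N * ℓ)) := by
  rw [Fermat.Agent.S18x.Desc.H19.h19_laurentBaseChange_eq]
  exact le_rfl

/-- **`F_{Nℓ}` is finite over `F_N` along the inclusion `α`.** -/
theorem h23_finiteAlong_alpha : FiniteAlong L (heckeAlphaBar L N ℓ) := by
  refine h23_finiteAlong _ (divisorExpansionsC L (N * ℓ))
    (Fermat.Agent.S18x.E.H29.finite_divisorExpansionsC L (N * ℓ)) (h23_le_adjoin L N ℓ) _ ?_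
  rintro s ⟨d, hd, -, rfl⟩
  haveI := hd
  apply h23_isIntegralElem_jd
  exact RingHom.isIntegralElem_map
    ((laurentBaseChange L (modularFunctionFieldFull (N * ℓ))).val.toRingHom.comp
      (heckeAlphaBar L N ℓ).toRingHom) (x := ⟨jqModC L, h23_jq_mem L N⟩)

/-- **`F_{Nℓ}` is finite over `F_N` along `β = (q ↦ q^ℓ)`.** -/
theorem h23_finiteAlong_beta : FiniteAlong L (heckeBetaBar L N ℓ) := by
  refine h23_finiteAlong _ (divisorExpansionsC L (N * ℓ))
    (Fermat.Agent.S18x.E.H29.finite_divisorExpansionsC L (N * ℓ)) (h23_le_adjoin L N ℓ) _ ?_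
  rintro s ⟨d, hd, -, rfl⟩
  haveI := hd
  apply h23_isIntegralElem_jd
  apply h23_isIntegralElem_j_of_jd L _ ℓ
  exact RingHom.isIntegralElem_map
    ((laurentBaseChange L (modularFunctionFieldFull (N * ℓ))).val.toRingHom.comp
      (heckeBetaBar L N ℓ).toRingHom) (x := ⟨jqModC L, h23_jq_mem L N⟩)

theorem h23_heckeAlphaBarIntegral : HeckeAlphaBarIntegral L N ℓ :=
  h23_isIntegral_of_finiteAlong _ (h23_finiteAlong_alpha L N ℓ)

theorem h23_heckeBetaBarIntegral : HeckeBetaBarIntegral L N ℓ :=
  h23_isIntegral_of_finiteAlong _ (h23_finiteAlong_beta L N ℓ)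

end Hecke

end Fermat.Agent.S37x.FF.H23
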