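import Mathlib
import Fermat.Prelude.Def_AlgebraicCurve_DivisorPushPull
import Fermat.Agent.S24.H2_PlacesDedekind
import Fermat.Agent.S20.H16_FibreSum

/-!
# S37 [FF] (helper23), part 1: the Dedekind model of the fibre over a place

`F'/F` is a finite extension of fields over `K`, `v` a place of `F`, `A := v.toValuationSubring`
(a discrete valuation ring), `B` "the" integral closure of `A` in `F'`, assumed to be a Dedekind
domain with fraction field `F'` (automatic when `F'/F` is separable).

* `h23_restrict_placeOfPrime` : every maximal ideal `P` of `B` gives a place over `v`;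
* `h23_exists_prime` : every place of `F'` over `v` is of this form;
* `h23_ramificationIndex` : the prelude ramification index is Mathlib's `Ideal.ramificationIdx`;
* `h23_deg` : `deg w = deg v * inertiaDeg`.
-/

set_option autoImplicit false
set_option linter.style.haveILetI false
set_option linter.unusedSectionVars false

namespace Fermat.Agent.S37x.FF.H23

open IsDedekindDomain AlgebraicCurve WithZero
open Fermat.Agent.S24.Alg

section Model

variable {K F F' : Type*} [Field K] [Field F] [Field F'] [Algebra K F] [Algebra K F']
  [Algebra F F'] [IsScalarTower K F F'] [FiniteDimensional F F']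
variable (v : Place K F)
variable [Algebra v.toValuationSubring F'] [IsScalarTower v.toValuationSubring F F']
variable (B : Type*) [CommRing B] [IsDedekindDomain B] [Algebra B F'] [IsFractionRing B F']
  [Algebra v.toValuationSubring B] [IsScalarTower v.toValuationSubring B F']
  [IsIntegralClosure B v.toValuationSubring F'] [Algebra K B] [IsScalarTower K B F']

/-- the structure map `A → F'` is the composite `A ⊆ F → F'`. -/
theorem h23_algebraMap_A (a : v.toValuationSubring) :
    algebraMap v.toValuationSubring F' a = algebraMap F F' (a : F) :=
  IsScalarTower.algebraMap_apply v.toValuationSubring F F' a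

variable {B} in
/-- Every maximal ideal of `B` gives a place of `F'` over `v`. -/
theorem h23_restrict_placeOfPrime (P : HeightOneSpectrum B) :
    (placeOfPrime K P : Place K F').restrict F = v := by
  apply Place.ext
  have hle : v.toValuationSubring ≤
      ((placeOfPrime K P : Place K F').restrict F).toValuationSubring := by
    intro x hx
    rw [Place.mem_restrict_iff, mem_placeOfPrime_iff]
    have h1 : algebraMap F F' x = algebraMap B F' (algebraMap v.toValuationSubring B ⟨x, hx⟩) := by
      rw [← IsScalarTower.algebraMap_apply v.toValuationSubring B F', h23_algebraMap_A]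
    rw [h1]
    exact P.valuation_le_one _
  have hK : Ring.KrullDimLE 1 v.toValuationSubring := inferInstance
  exact (ValuationSubring.eq_of_le_of_ne_top (A := v.toValuationSubring) hle
    ((placeOfPrime K P : Place K F').restrict F).ne_top').symm

/-- Every place of `F'` over `v` comes from a maximal ideal of `B`. -/
theorem h23_exists_prime (w : Place K F') (hw : w.restrict F = v) :
    ∃ P : HeightOneSpectrum B, w = placeOfPrime K P := by
  apply exists_prime_of_le w
  intro b
  have hA : ∀ a : v.toValuationSubring,
      algebraMap v.toValuationSubring F' a ∈ w.toValuationSubring.toSubring := by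
    intro a
    rw [h23_algebraMap_A]
    have : (a : F) ∈ (w.restrict F).toValuationSubring := by rw [hw]; exact a.2
    exact this
  letI : Algebra v.toValuationSubring w.toValuationSubring :=
    ((algebraMap v.toValuationSubring F').codRestrict w.toValuationSubring.toSubring hA).toAlgebra
  haveI : IsScalarTower v.toValuationSubring w.toValuationSubring F' :=
    IsScalarTower.of_algebraMap_eq fun a => rfl
  have hb : IsIntegral v.toValuationSubring (algebraMap B F' b) :=
    IsIntegralClosure.isIntegral_iff (A := B) |>.mpr ⟨b, rfl⟩
  have hx : IsIntegral w.toValuationSubring (algebraMap B F' b) := hb.tower_top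
  obtain ⟨y, hy⟩ := IsIntegrallyClosed.isIntegral_iff.mp hx
  exact hy ▸ y.2

variable [IsScalarTower K v.toValuationSubring B] [Module.Finite v.toValuationSubring B]
  [Module.IsTorsionFree v.toValuationSubring B]

theorem h23_maximalIdeal_ne_bot : IsLocalRing.maximalIdeal v.toValuationSubring ≠ ⊥ :=
  IsDiscreteValuationRing.not_a_field _

variable {B} in
/-- every maximal ideal of `B` lies over the maximal ideal of `A`. -/
theorem h23_under (P : HeightOneSpectrum B) :
    P.asIdeal.under v.toValuationSubring = IsLocalRing.maximalIdeal v.toValuationSubring := by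
  have h0 : P.asIdeal.under v.toValuationSubring ≠ ⊥ :=
    Ideal.under_ne_bot v.toValuationSubring P.ne_bot
  have hmax : (P.asIdeal.under v.toValuationSubring).IsMaximal :=
    Ideal.IsPrime.isMaximal inferInstance h0
  exact IsLocalRing.eq_maximalIdeal hmax

variable {B} in
theorem h23_liesOver (P : HeightOneSpectrum B) :
    P.asIdeal.LiesOver (IsLocalRing.maximalIdeal v.toValuationSubring) :=
  ⟨(h23_under v P).symm⟩

/-- The maximal ideals of `B`, as primes over the maximal ideal of `A`. -/
noncomputable def h23_primeEquiv :
    HeightOneSpectrum B ≃ (IsLocalRing.maximalIdeal v.toValuationSubring).primesOver B where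
  toFun P := ⟨P.asIdeal, P.isPrime, h23_liesOver v P⟩
  invFun q := ⟨q.1, q.2.1, Ideal.ne_bot_of_mem_primesOver (h23_maximalIdeal_ne_bot v) q.2⟩
  left_inv _ := rfl
  right_inv _ := rfl

@[simp]
theorem h23_primeEquiv_symm_asIdeal
    (q : (IsLocalRing.maximalIdeal v.toValuationSubring).primesOver B) :
    ((h23_primeEquiv v B).symm q).asIdeal = q.1 := rfl

variable {B} in
/-- The prelude ramification index of the place of `P` is Mathlib's ramification index. -/
theorem h23_ramificationIndex (P : HeightOneSpectrum B) :
    (placeOfPrime K P : Place K F').ramificationIndex F =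
      P.asIdeal.ramificationIdx v.toValuationSubring := by
  obtain ⟨ϖ, hϖ⟩ := IsDiscreteValuationRing.exists_irreducible v.toValuationSubring
  have h1 := (placeOfPrime K P : Place K F').ord_restrict (F := F) (ϖ : F)
  rw [h23_restrict_placeOfPrime v P, v.ord_coe_irreducible hϖ, mul_one] at h1
  have hϖ0 : algebraMap v.toValuationSubring B ϖ ≠ 0 := by
    intro h
    exact hϖ.ne_zero (FaithfulSMul.algebraMap_injective v.toValuationSubring B
      (by rw [h, map_zero]))
  have hspan : IsLocalRing.maximalIdeal v.toValuationSubring = Ideal.span {ϖ} :=
    (IsDiscreteValuationRing.irreducible_iff_uniformizer ϖ).1 hϖ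
  have hmap : (IsLocalRing.maximalIdeal v.toValuationSubring).map
      (algebraMap v.toValuationSubring B) = Ideal.span {algebraMap v.toValuationSubring B ϖ} := by
    rw [hspan, Ideal.map_span, Set.image_singleton]
  have hne : (IsLocalRing.maximalIdeal v.toValuationSubring).map
      (algebraMap v.toValuationSubring B) ≠ ⊥ := by
    rw [hmap, Ne, Ideal.span_singleton_eq_bot]
    exact hϖ0
  haveI := h23_liesOver v P
  haveI : P.asIdeal.IsPrime := P.isPrime
  have h2 : algebraMap F F' (ϖ : F) =
      algebraMap B F' (algebraMap v.toValuationSubring B ϖ) := by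
    rw [← IsScalarTower.algebraMap_apply v.toValuationSubring B F', h23_algebraMap_A]
  have h3 : (placeOfPrime K P : Place K F').ord (algebraMap F F' (ϖ : F)) =
      (P.asIdeal.ramificationIdx v.toValuationSubring : ℤ) := by
    rw [h2, ord_placeOfPrime, HeightOneSpectrum.valuation_of_algebraMap,
      HeightOneSpectrum.intValuation_eq_exp_neg_multiplicity _ hϖ0,
      log_exp, neg_neg, Ideal.IsDedekindDomain.ramificationIdx_eq_multiplicity
        (IsLocalRing.maximalIdeal v.toValuationSubring) P.asIdeal hne, hmap]
  rw [h3] at h1
  exact_mod_cast h1.symm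

variable {B} in
/-- The degree of the place of `P`. -/
theorem h23_deg (P : HeightOneSpectrum B) :
    (placeOfPrime K P : Place K F').deg =
      v.deg * P.asIdeal.inertiaDeg v.toValuationSubring := by
  haveI := h23_liesOver v P
  haveI : P.asIdeal.IsMaximal := P.isMaximal
  letI : Field (v.toValuationSubring ⧸ IsLocalRing.maximalIdeal v.toValuationSubring) :=
    Ideal.Quotient.field _
  letI : Field (B ⧸ P.asIdeal) := Ideal.Quotient.field _
  rw [deg_placeOfPrime,
    Ideal.inertiaDeg_eq_of_isMaximal (IsLocalRing.maximalIdeal v.toValuationSubring) P.asIdeal,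
    ← Module.finrank_mul_finrank K
      (v.toValuationSubring ⧸ IsLocalRing.maximalIdeal v.toValuationSubring) (B ⧸ P.asIdeal)]
  rfl

/-- Sums over the fibre of `v` are sums over the primes of `B` over the maximal ideal. -/
theorem h23_sum_fiber [HasPrincipalDivisors K F'] {M : Type*} [AddCommMonoid M]
    (g : Place K F' → M) :
    ∑ w ∈ v.fiber F', g w =
      ∑ q : (IsLocalRing.maximalIdeal v.toValuationSubring).primesOver B,
        g (placeOfPrime K ((h23_primeEquiv v B).symm q)) := by
  symm
  refine Finset.sum_bij (fun q _ => placeOfPrime K ((h23_primeEquiv v B).symm q)) ?_ ?_ ?_ ?_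
  · intro q _
    exact Place.mem_fiber.mpr (h23_restrict_placeOfPrime v _)
  · intro q₁ _ q₂ _ h
    exact (h23_primeEquiv v B).symm.injective (placeOfPrime_injective h)
  · intro w hw
    obtain ⟨P, hP⟩ := h23_exists_prime v B w (Place.mem_fiber.mp hw)
    exact ⟨h23_primeEquiv v B P, Finset.mem_univ _, by
      rw [Equiv.symm_apply_apply]; exact hP.symm⟩
  · intro q _
    rfl

include B in
/-- **The fundamental identity at `v`.** -/
theorem h23_fundId_at [HasPrincipalDivisors K F'] :
    ∑ w ∈ v.fiber F', (w.ramificationIndex F : ℤ) * (w.deg : ℤ) =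
      (Module.finrank F F' : ℤ) * (v.deg : ℤ) := by
  haveI : (IsLocalRing.maximalIdeal v.toValuationSubring).IsMaximal :=
    IsLocalRing.maximalIdeal.isMaximal _
  rw [h23_sum_fiber v B, IsFractionRing.finrank_eq v.toValuationSubring F B F',
    ← Ideal.sum_ramification_inertia_eq_finrank
      (IsLocalRing.maximalIdeal v.toValuationSubring) B, Nat.cast_sum, Finset.sum_mul]
  refine Finset.sum_congr rfl fun q _ => ?_
  rw [h23_ramificationIndex v, h23_deg v, h23_primeEquiv_symm_asIdeal]
  push_cast
  ring

end Model

end Fermat.Agent.S37x.FF.H23
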