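import Fermat.Agent.S37x.FF.H23_FundId
import Fermat.Agent.S37x.FF.H23_Norm
import Fermat.Agent.S37x.FF.H23_Int
import Fermat.Agent.S18x.E.H12_Div
import Fermat.Agent.S37x.Asm.DefsLeaves

/-!
# S37 [FF] (helper23), top: `HeckeInputsAlong ℚ̄ N ℓ` for ALL `N, ℓ ≥ 1`, hypothesis-free

* `h23_heckeInputsAlong_of e N ℓ` : for every algebraically closed field `L` with an embedding
  `e : L →+* ℂ`;
* `h23_heckeInputsAlong N ℓ : HeckeInputsAlong (AlgebraicClosure ℚ) N ℓ`;
* `stFF N ℓ : Asm.StFF N ℓ` (the interface of `S37x/Asm/DefsLeaves.lean`);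
* `h23_heckeOperatorAlong_eq`, `h23_heckeOperatorAlong_mk` : the Hecke operator is the
  correspondence `α_* β^*` with the inputs of this package.
-/

set_option autoImplicit false
set_option linter.style.haveILetI false
set_option linter.unusedSectionVars false

open IntermediateField ModularCurve AlgebraicCurve

noncomputable section

namespace Fermat.Agent.S37x.FF.H23

section General

variable {L : Type} [Field L] [Algebra ℚ L] [IsAlgClosed L] (e : L →+* ℂ)
  (N ℓ : ℕ) [NeZero N] [NeZero ℓ]

include e

theorem h23_hasPrincipalDivisors :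
    HasPrincipalDivisors L (laurentBaseChange L (modularFunctionFieldFull N)) := by
  haveI : CharZero L := e.charZero
  have := Fermat.Agent.S24.Final.finiteDimensional_jF (K := L) e N
  exact Fermat.Agent.S18x.E.H12.h12_hasPrincipalDivisors (Fermat.Agent.S24.Final.jF L N)
    (Fermat.Agent.S24.Final.transcendental_jF L N)

theorem h23_deg_eq_one (v : Place L (laurentBaseChange L (modularFunctionFieldFull N))) :
    v.deg = 1 := by
  haveI : CharZero L := e.charZero
  have := Fermat.Agent.S24.Final.finiteDimensional_jF (K := L) e N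
  exact Fermat.Agent.S24.Alg.deg_eq_one (Fermat.Agent.S24.Final.jF L N)
    (Fermat.Agent.S24.Final.transcendental_jF L N) v

theorem h23_fundamentalIdentityAlong_beta
    [HasPrincipalDivisors L (laurentBaseChange L (modularFunctionFieldFull (N * ℓ)))] :
    FundamentalIdentityAlong L (heckeBetaBar L N ℓ) (h23_heckeBetaBarIntegral L N ℓ) := by
  haveI : CharZero L := e.charZero
  haveI : CharZero (laurentBaseChange L (modularFunctionFieldFull N)) :=
    charZero_of_injective_algebraMap
      (algebraMap L (laurentBaseChange L (modularFunctionFieldFull N))).injective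
  exact h23_fundamentalIdentityAlong _ _ (h23_finiteAlong_beta L N ℓ)

theorem h23_normFormulaAlong_alpha :
    NormFormulaAlong L (heckeAlphaBar L N ℓ) (h23_finiteAlong_alpha L N ℓ) := by
  haveI : CharZero L := e.charZero
  haveI : CharZero (laurentBaseChange L (modularFunctionFieldFull N)) :=
    charZero_of_injective_algebraMap
      (algebraMap L (laurentBaseChange L (modularFunctionFieldFull N))).injective
  refine h23_normFormulaAlong _ _ fun v => ?_
  rw [h23_deg_eq_one e N v]
  exact one_ne_zero

/-- **[FF]** for an algebraically closed field `L ⊆ ℂ`. -/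
theorem h23_heckeInputsAlong_of : HeckeInputsAlong L N ℓ := by
  haveI := h23_hasPrincipalDivisors e (N * ℓ)
  exact heckeInputsAlong_intro (h23_heckeAlphaBarIntegral L N ℓ) (h23_heckeBetaBarIntegral L N ℓ)
    (h23_fundamentalIdentityAlong_beta e N ℓ) (h23_finiteAlong_alpha L N ℓ)
    (h23_normFormulaAlong_alpha e N ℓ)

end General

section Bar

variable (N ℓ : ℕ) [NeZero N] [NeZero ℓ]

/-- **[FF]** `HeckeInputsAlong ℚ̄ N ℓ`, for all `N, ℓ ≥ 1`. -/
theorem h23_heckeInputsAlong : HeckeInputsAlong (AlgebraicClosure ℚ) N ℓ :=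
  h23_heckeInputsAlong_of Fermat.Agent.S18x.E.H12.h12_embQbar N ℓ

/-- **[FF]** in the spelling of `S37x/Asm/DefsLeaves.lean`. -/
theorem stFF : Fermat.Agent.S37x.Asm.StFF N ℓ :=
  h23_heckeInputsAlong N ℓ

end Bar

end Fermat.Agent.S37x.FF.H23
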